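import Fermat.Agent.S51
import Fermat.Agent.Frob.VarChange
import Fermat.Agent.H05_Frob
set_option autoImplicit false

/-!
# Irreducibility of `W[5]` from a Frobenius trace
-/

namespace Fermat.Agent.ZK

open WeierstrassCurve WeierstrassCurve.Affine WeierstrassCurve.Affine.Point
open Fermat.Agent.H51 Fermat.Agent.S51

local notation "Kbar" => AlgebraicClosure ℚ

/-- If `5` divides the trace of Frobenius at a good prime `r = ± 2 mod 5` then `W[5]` is
irreducible. -/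
theorem irr_five_of_trace (W : WeierstrassCurve ℤ) (hΔ : W.Δ ≠ 0) {r : ℕ} (hr : r.Prime)
    (hgood : W.IsGoodPrimeFor r) (h0 : (5 : ℤ) ∣ W.apOfModel r) (hr5 : r % 5 = 2 ∨ r % 5 = 3) :
    W.ModRepIsIrreducible 5 := by
  by_contra hcon
  set E : WeierstrassCurve ℚ := W.map (Int.castRingHom ℚ) with hE
  have hΔK : (E⁄Kbar).Δ ≠ 0 := by
    change (E.map (algebraMap ℚ Kbar)).Δ ≠ 0
    rw [map_Δ, hE, map_Δ]
    simpa using hΔ
  have h5 : (5 : Kbar) ≠ 0 := by norm_num
  have hfact : Fact (Nat.Prime 5) := ⟨by norm_num⟩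
  obtain ⟨hfin, hcard⟩ := card_five_torsion (V := E⁄Kbar) h5
  have hnt : Nontrivial (Submodule.torsionBy ℤ (E⁄Kbar).Point (5 : ℕ)) := by
    obtain ⟨P, hP, hP3⟩ := exists_five_torsion (V := E⁄Kbar) hΔK h5
    refine ⟨⟨P, ?_⟩, 0, fun h => hP (congrArg Subtype.val h)⟩
    rw [Submodule.mem_torsionBy_iff]
    exact_mod_cast hP3
  unfold ModRepIsIrreducible GaloisRepIsIrreducible at hcon
  push Not at hcon
  obtain ⟨N, hN, hbot, htop⟩ := hcon hnt
  obtain ⟨v, hv, hv0, hall⟩ := line_of_card (p := 5) hfin (by omega) N hbot htop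
  have hv0' : (v : (E⁄Kbar).Point) ≠ 0 := fun h => hv0 (Subtype.ext h)
  have hv5 : (5 : ℕ) • (v : (E⁄Kbar).Point) = 0 := by
    have := v.2
    rw [Submodule.mem_torsionBy_iff] at this
    exact_mod_cast this
  obtain ⟨A, hA⟩ := H05.exists_liesOverPrime Kbar hr
  obtain ⟨σ, hσ⟩ := H05.exists_isFrobeniusAt (L := Kbar) hr hA
  have hr5' : ¬ r ∣ 5 := by
    intro h
    have := (Nat.prime_dvd_prime_iff_eq hr (by norm_num)).mp h
    omega
  have hmod : W.IsIntegralModelOf E := ⟨1, by rw [one_smul]⟩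
  have hrel := Frob.frobenius_relation_model hmod hr hgood hA hσ hr5' (v : (E⁄Kbar).Point) hv5
  obtain ⟨c, hc⟩ := hall (σ • v) (hN σ v hv)
  have hc' : σ • (v : (E⁄Kbar).Point) = ((c • v : Submodule.torsionBy ℤ (E⁄Kbar).Point (5 : ℕ)) : (E⁄Kbar).Point) :=
    congrArg Subtype.val hc
  have hcn : ((c • v : Submodule.torsionBy ℤ (E⁄Kbar).Point (5 : ℕ)) : (E⁄Kbar).Point) =
      c.val • (v : (E⁄Kbar).Point) := by
    have : c • v = c.val • v := by
      conv_lhs => rw [← ZMod.natCast_zmod_val c]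
      exact Nat.cast_smul_eq_nsmul _ _ _
    rw [this]; rfl
  rw [hcn] at hc'
  rw [hc', nsmul_galois, hc'] at hrel
  obtain ⟨a, ha⟩ := h0
  have hlt := ZMod.val_lt c
  have hz : ((5 : ℤ) * a) • (c.val • (v : (E⁄Kbar).Point)) = 0 := by
    have e1 : c.val • (v : (E⁄Kbar).Point) = ((c.val : ℕ) : ℤ) • (v : (E⁄Kbar).Point) :=
      (natCast_zsmul _ _).symm
    rw [e1, ← mul_zsmul]
    have e2 : (5 : ℤ) * a * (c.val : ℕ) = (a * (c.val : ℕ)) * ((5 : ℕ) : ℤ) := by
      push_cast; ring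
    rw [e2, mul_zsmul, natCast_zsmul, hv5, zsmul_zero]
  rw [ha, hz, sub_zero] at hrel
  have hz2 : ((c.val * c.val + r : ℕ) : ℤ) • (v : (E⁄Kbar).Point) = 0 := by
    rw [natCast_zsmul, add_nsmul, mul_nsmul]
    rw [natCast_zsmul] at hrel
    exact hrel
  -- order of `v` is `5`
  have hord : addOrderOf (v : (E⁄Kbar).Point) = 5 :=
    addOrderOf_eq_prime hv5 hv0'
  have hdvd : addOrderOf (v : (E⁄Kbar).Point) ∣ c.val * c.val + r := by
    apply addOrderOf_dvd_of_nsmul_eq_zero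
    rw [natCast_zsmul] at hz2
    exact hz2
  rw [hord] at hdvd
  generalize c.val = m at hdvd hlt
  interval_cases m <;> omega

end Fermat.Agent.ZK
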