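import Fermat.Agent.ZK.Switch2
import Fermat.Agent.H28N.TraceTwo
import Fermat.Agent.H07.P2.Zero
import Fermat.Agent.H01.P2.Props
set_option autoImplicit false

/-!
# `Switch5Two`
-/

namespace Fermat.Agent.ZK

open WeierstrassCurve

/-- **(Switch at `5`, from good to multiplicative at `2`)** -/
theorem switch5Two : P2.Switch5Two := by
  intro W hΔ hW h2 ha _
  have ha1 : (2 : ℤ) ∣ W.a₁ := by
    by_contra h
    rcases H28N.apOfModel_odd h2 h with h | h <;> rcases ha with ha | ha <;> omega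
  have h32 : ¬ (32 : ℤ) ∣ W.c₄ := fun h => by
    have := (H28N.apOfModel_even h2 ha1).1 h
    omega
  have hc2 : (2 : ℤ) ∣ W.c₄ := by
    obtain ⟨a, ha⟩ := ha1
    have h3 := H28N.odd_a3 h2 ⟨a, ha⟩
    obtain ⟨b, hb⟩ : ∃ b, W.a₃ = 2 * b + 1 := ⟨W.a₃ / 2, by omega⟩
    rw [H28N.c4_of_even ha hb]
    exact Dvd.dvd.mul_right (by norm_num) _
  obtain ⟨c, d, hc4, hc6, hd⟩ := H07.P2.ss_shape W h2 hc2
  have hc : c % 2 = 1 := by omega
  obtain ⟨W', h1, h3, h4, h5, h6, -, h8, h9⟩ := switch_two W hΔ hW h2 hc4 hc6 hc hd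
  refine ⟨W', h1, h3, h4, h5, h6, h8, ?_⟩
  intro ℓ hℓ hℓ2 hℓ5 hg hg'
  exact_mod_cast h9 ℓ hℓ hℓ2 hℓ5 hg hg'

end Fermat.Agent.ZK
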