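import Mathlib
import Fermat.Agent.H24K.Alg
import Fermat.Agent.H07.SelAlg
set_option autoImplicit false

/-!
# The 5-family at `m = X / 4` for curves with supersingular reduction at `2`
-/

namespace Fermat.Agent.ZK

open Fermat.Agent.H24 Fermat.Agent.H24K

section forms

variable {R : Type*} [CommRing R]

/-- `c₄` of the member `X / 4` of the family of `(16 c, 8 d)` -/
def C4q_16 (c d X : R) : R :=
  ((35625*d^6 - 4767480*c^3*d^4 + 178677900*c^6*d^2 - 1246590000*c^9)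
    + X*((176700*c^2*d^5 - 22346280*c^5*d^3 + 706401000*c^8*d)
    + X*((-38000*c*d^6 + 7915590*c^4*d^4 - 545729400*c^7*d^2 + 12465900000*c^10)
    + X*((-5000*d^7 + 979200*c^3*d^5 - 63887940*c^6*d^3 + 1388745000*c^9*d)
    + X*(-11000*c^2*d^6 + 2128896*c^5*d^4 - 137325375*c^8*d^2 + 2952450000*c^11)))))

def C4q_8 (c d X : R) : R :=
  ((281580*c^2*d^2 - 16005600*c^5)
    + X*((247000*c*d^3 - 15472080*c^4*d)
    + X*((61750*d^4 - 1404936*c^3*d^2 - 160056000*c^6)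
    + X*((1714180*c^2*d^3 - 109371600*c^5*d)
    + X*((148200*c*d^4 + 1800630*c^4*d^2 - 720252000*c^7)
    + X*((28500*d^5 - 725040*c^3*d^3 - 70178400*c^6*d)
    + X*((1122900*c^2*d^4 - 123797160*c^5*d^2 + 3324240000*c^8)
    + X*((228000*c*d^5 - 27576828*c^4*d^3 + 831060000*c^7*d) + X*C4q_16 c d X))))))))

def C4q (c d X : R) : R :=
  ((16*c)
    + X*((40*d)
    + X*((3040*c^2)
    + X*((2280*c*d)
    + X*((1425*d^2 - 13680*c^3)
    + X*((31008*c^2*d)
    + X*((-15960*c*d^2 + 1641600*c^4)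
    + X*((-5700*d^3 + 519840*c^3*d) + X*C4q_8 c d X))))))))

/-- `c₆` of the member `X / 4` of the family of `(16 c, 8 d)` -/
def C6q_24 (c d X : R) : R :=
  ((2446875*d^9 - 695173500*c^3*d^7 + 68840028900*c^6*d^5 - 2835902364300*c^9*d^3 + 40712809275000*c^12*d)
    + X*((-69491250*c^2*d^8 + 17401025556*c^5*d^6 - 1648884472830*c^8*d^4 + 70097953635000*c^11*d^2 - 1128142954800000*c^14)
    + X*((-19575000*c*d^9 + 4998887325*c^4*d^7 - 479371329360*c^7*d^5 + 20459007195750*c^10*d^3 - 327885810975000*c^13*d)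
    + X*((-1812500*d^10 + 426996000*c^3*d^8 - 35108294940*c^6*d^6 + 996971506200*c^9*d^4 + 8104032382500*c^12*d^2 - 616471560000000*c^15)
    + X*((-10222500*c^2*d^9 + 2616316200*c^5*d^7 - 251133833295*c^8*d^5 + 10714903600500*c^11*d^3 - 171456152625000*c^14*d)
    + X*((300000*c*d^10 - 119569500*c^4*d^8 + 18320975280*c^7*d^6 - 1365545194650*c^10*d^4 + 49873523512500*c^13*d^2 - 717445350000000*c^16)
    + X*(25000*d^11 - 8360000*c^3*d^9 + 1116155700*c^6*d^7 - 74382704352*c^9*d^5 + 2474608269375*c^12*d^3 - 32882911875000*c^15*d)))))))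

def C6q_16 (c d X : R) : R :=
  ((-581690700*c^2*d^5 + 59332451400*c^5*d^3 - 1413508401000*c^8*d)
    + X*((-171085500*c*d^6 + 14610701700*c^4*d^4 + 77604382800*c^7*d^2 - 19955412720000*c^10)
    + X*((-23761875*d^7 - 593096400*c^3*d^5 + 347064045300*c^6*d^3 - 13553051139000*c^9*d)
    + X*((-1047523500*c^2*d^6 + 126574455600*c^5*d^4 - 3481840250100*c^8*d^2 - 21005697600000*c^11)
    + X*((-105052500*c*d^7 + 7601778990*c^4*d^5 + 303110919720*c^7*d^3 - 22996862685000*c^10*d)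
    + X*((-12506250*d^8 + 1251425400*c^3*d^6 - 42330154500*c^6*d^4 + 3077188825500*c^9*d^2 - 141788458800000*c^12)
    + X*((-139569750*c^2*d^7 + 15041116800*c^5*d^5 - 215563677975*c^8*d^3 - 11224919655000*c^11*d)
    + X*((23490000*c*d^8 - 7406710200*c^4*d^6 + 779510952000*c^7*d^4 - 33414470973000*c^10*d^2 + 493177248000000*c^13) + X*C6q_24 c d X))))))))

def C6q_8 (c d X : R) : R :=
  ((1800900*c*d^3 - 68434200*c^4*d)
    + X*((500250*d^4 - 42021000*c^3*d^2 + 1555977600*c^6)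
    + X*((-27073530*c^2*d^3 + 1973066040*c^5*d)
    + X*((-22811400*c*d^4 + 1352475900*c^4*d^2 + 10373184000*c^7)
    + X*((-4752375*d^5 - 201500700*c^3*d^3 + 33053718600*c^6*d)
    + X*((-188194050*c^2*d^4 + 5235216300*c^5*d^2 + 443453616000*c^8)
    + X*((-5380638975*c^4*d^3 + 345524275800*c^7*d)
    + X*((-1240940160*c^3*d^4 + 79575287760*c^6*d^2) + X*C6q_16 c d X))))))))

def C6q (c d X : R) : R :=
  ((8*d)
    + X*((1920*c^2)
    + X*((3480*c*d)
    + X*((2900*d^2 + 74240*c^3)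
    + X*((219240*c^2*d)
    + X*((46980*c*d^2 + 6113664*c^4)
    + X*((19575*d^3 + 3497400*c^3*d)
    + X*((3915000*c^2*d^2 - 120268800*c^5) + X*C6q_8 c d X))))))))

/-- `DD` of the member `X / 4` of the family of `(16 c, 8 d)` -/
def D4q (c d X : R) : R :=
  ((1)
    + X*((0)
    + X*((-66*c)
    + X*((-55*d)
    + X*((-1485*c^2)
    + X*((-396*c*d)
    + X*((-165*d^2 + 5940*c^3)
    + X*((-594*c^2*d)
    + X*((990*c*d^2 - 66825*c^4)
    + X*((275*d^3 - 17820*c^3*d)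
    + X*((2079*c^2*d^2 - 133650*c^5)
    + X*((120*c*d^3 - 7695*c^4*d)
    + X*(25*d^4 - 3024*c^3*d^2 + 91125*c^6)))))))))))))

/-- derivative of `D4q` -/
def D4p (c d X : R) : R :=
  ((0)
    + X*((-132*c)
    + X*((-165*d)
    + X*((-5940*c^2)
    + X*((-1980*c*d)
    + X*((-990*d^2 + 35640*c^3)
    + X*((-4158*c^2*d)
    + X*((7920*c*d^2 - 534600*c^4)
    + X*((2475*d^3 - 160380*c^3*d)
    + X*((20790*c^2*d^2 - 1336500*c^5)
    + X*((1320*c*d^3 - 84645*c^4*d)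
    + X*(300*d^4 - 36288*c^3*d^2 + 1093500*c^6))))))))))))

/-- second derivative of `D4q` over `11` -/
def D4e (c d X : R) : R :=
  ((-12*c)
    + X*((-30*d)
    + X*((-1620*c^2)
    + X*((-720*c*d)
    + X*((-450*d^2 + 16200*c^3)
    + X*((-2268*c^2*d)
    + X*((5040*c*d^2 - 340200*c^4)
    + X*((1800*d^3 - 116640*c^3*d)
    + X*((17010*c^2*d^2 - 1093500*c^5)
    + X*((1200*c*d^3 - 76950*c^4*d)
    + X*(300*d^4 - 36288*c^3*d^2 + 1093500*c^6)))))))))))

/-- third derivative of `D4q` over `110` -/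
def D4f (c d X : R) : R :=
  ((-3*d)
    + X*((-324*c^2)
    + X*((-216*c*d)
    + X*((-180*d^2 + 6480*c^3)
    + X*((-1134*c^2*d)
    + X*((3024*c*d^2 - 204120*c^4)
    + X*((1260*d^3 - 81648*c^3*d)
    + X*((13608*c^2*d^2 - 874800*c^5)
    + X*((1080*c*d^3 - 69255*c^4*d)
    + X*(300*d^4 - 36288*c^3*d^2 + 1093500*c^6))))))))))

theorem C4_quarter (c d m : R) : C4 (16*c) (8*d) m = C4q c d (4*m) := by
  unfold C4 P4 P4_9 P4_17 C4q C4q_8 C4q_16; ring

theorem C6_quarter (c d m : R) : C6 (16*c) (8*d) m = C6q c d (4*m) := by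
  unfold C6 P6 P6_9 P6_17 P6_25 C6q C6q_8 C6q_16 C6q_24; ring

theorem DD_quarter (c d m : R) : DD (16*c) (8*d) m = D4q c d (4*m) := by
  unfold DD PD D4q; ring

theorem C4q_eq (c d X : R) :
    9 * C4q c d X = D4p c d X ^ 2 - 12 * D4q c d X * D4e c d X := by
  unfold C4q C4q_8 C4q_16 D4p D4q D4e; ring

theorem C6q_eq (c d X : R) :
    27 * C6q c d X = -(D4p c d X ^ 3 - 18 * D4q c d X * D4p c d X * D4e c d X
      + 72 * D4q c d X ^ 2 * D4f c d X) := by
  unfold C6q C6q_8 C6q_16 C6q_24 D4p D4q D4e D4f; ring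

end forms

end Fermat.Agent.ZK
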