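import Fermat.Agent.ZK.Forms4
import Fermat.Agent.H24K.Trace
import Fermat.Agent.H24.Disc
set_option autoImplicit false

/-!
# The 5-family at `m = X / 4`: local study
-/

namespace Fermat.Agent.ZK

open WeierstrassCurve Fermat.Agent.H24 Fermat.Agent.H24K

section zero

variable {R : Type*} [CommRing R]

theorem C4q_exists (c d X : R) : ∃ r, C4q c d X = 16 * c + X * r := ⟨_, rfl⟩

theorem C6q_exists (c d X : R) : ∃ r, C6q c d X = 8 * d + X * r := ⟨_, rfl⟩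

theorem D4q_exists (c d X : R) : ∃ r, D4q c d X = 1 + X * r := ⟨_, rfl⟩

theorem C4q_zero {c d X M : R} (h : M ∣ X) : M ∣ C4q c d X - 16 * c := by
  obtain ⟨r, hr⟩ := C4q_exists c d X
  rw [hr, add_sub_cancel_left]; exact h.mul_right _

theorem C6q_zero {c d X M : R} (h : M ∣ X) : M ∣ C6q c d X - 8 * d := by
  obtain ⟨r, hr⟩ := C6q_exists c d X
  rw [hr, add_sub_cancel_left]; exact h.mul_right _

theorem D4q_zero {c d X M : R} (h : M ∣ X) : M ∣ D4q c d X - 1 := by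
  obtain ⟨r, hr⟩ := D4q_exists c d X
  rw [hr, add_sub_cancel_left]; exact h.mul_right _

variable {S : Type*} [CommRing S] (f : R →+* S) (c d X : R)

theorem map_D4q : f (D4q c d X) = D4q (f c) (f d) (f X) := by
  simp only [D4q, map_add, map_mul, map_pow, map_sub, map_ofNat, map_neg, map_one, map_zero]

theorem map_D4p : f (D4p c d X) = D4p (f c) (f d) (f X) := by
  simp only [D4p, map_add, map_mul, map_pow, map_sub, map_ofNat, map_neg, map_one, map_zero]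

theorem map_C4q : f (C4q c d X) = C4q (f c) (f d) (f X) := by
  simp only [C4q, C4q_8, C4q_16, map_add, map_mul, map_pow, map_sub, map_ofNat, map_neg, map_one,
    map_zero]

theorem map_C6q : f (C6q c d X) = C6q (f c) (f d) (f X) := by
  simp only [C6q, C6q_8, C6q_16, C6q_24, map_add, map_mul, map_pow, map_sub, map_ofNat, map_neg,
    map_one, map_zero]

end zero

section two

theorem z4_D : ∀ c : ZMod 4, (c = 1 ∨ c = 3) → D4q c 1 3 = 2 ∧ D4p c 1 3 = 3 := by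
  decide +kernel

/-- the local conditions at `2` -/
theorem local_two {c d X : ℤ} (hc : c % 2 = 1) (hd : d % 4 = 1) (hX : X % 4 = 3) :
    (2 : ℤ) ∣ D4q c d X ∧ ¬ (2 : ℤ) ^ 2 ∣ D4q c d X ∧ ¬ (2 : ℤ) ∣ C4q c d X ∧
      C6q c d X % 4 = 3 := by
  have f4 : ∀ z : ℤ, (Int.castRingHom (ZMod 4)) z = 0 ↔ (4 : ℤ) ∣ z := fun z =>
    ZMod.intCast_zmod_eq_zero_iff_dvd z 4
  have hX' : (Int.castRingHom (ZMod 4)) X = 3 := by
    have := (f4 (X - 3)).2 (by omega)
    rw [map_sub, map_ofNat] at this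
    exact sub_eq_zero.1 this
  have hd' : (Int.castRingHom (ZMod 4)) d = 1 := by
    have := (f4 (d - 1)).2 (by omega)
    rw [map_sub, map_one] at this
    exact sub_eq_zero.1 this
  have hc' : (Int.castRingHom (ZMod 4)) c = 1 ∨ (Int.castRingHom (ZMod 4)) c = 3 := by
    have h : c % 4 = 1 ∨ c % 4 = 3 := by omega
    rcases h with h | h
    · left
      have := (f4 (c - 1)).2 (by omega)
      rw [map_sub, map_one] at this
      exact sub_eq_zero.1 this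
    · right
      have := (f4 (c - 3)).2 (by omega)
      rw [map_sub, map_ofNat] at this
      exact sub_eq_zero.1 this
  obtain ⟨hD, hP⟩ := z4_D _ hc'
  have hD1 : (4 : ℤ) ∣ D4q c d X - 2 := by
    rw [← f4, map_sub, map_D4q, hX', hd', hD, map_ofNat, sub_self]
  have hP1 : (4 : ℤ) ∣ D4p c d X - 3 := by
    rw [← f4, map_sub, map_D4p, hX', hd', hP, map_ofNat, sub_self]
  have h4 := C4q_eq c d X
  have h6 := C6q_eq c d X
  obtain ⟨a, ha⟩ := hD1
  obtain ⟨b, hb⟩ := hP1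
  have ha' : D4q c d X = 4 * a + 2 := by linear_combination ha
  have hb' : D4p c d X = 4 * b + 3 := by linear_combination hb
  rw [ha', hb'] at h4 h6
  generalize D4e c d X = e at *
  generalize D4f c d X = f at *
  have h4' : 9 * C4q c d X = 4 * (4 * b ^ 2 + 6 * b - 3 * (4 * a + 2) * e) + 9 := by
    rw [h4]; ring
  have h6' : 27 * C6q c d X = 4 * (-(16 * b ^ 3 + 36 * b ^ 2 + 27 * b) +
      9 * (2 * a + 1) * (4 * b + 3) * e - 18 * (4 * a + 2) ^ 2 * f) - 27 := by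
    rw [h6]; ring
  generalize (4 * b ^ 2 + 6 * b - 3 * (4 * a + 2) * e) = s at h4'
  generalize (-(16 * b ^ 3 + 36 * b ^ 2 + 27 * b) +
      9 * (2 * a + 1) * (4 * b + 3) * e - 18 * (4 * a + 2) ^ 2 * f) = t at h6'
  refine ⟨by omega, ?_, by omega, by omega⟩
  norm_num
  omega

end two

section field

variable {k : Type*} [Field k]

theorem four_mul_div {X : k} (h2 : (2 : k) ≠ 0) : 4 * (X / 4) = X := by
  have h4 : (4 : k) ≠ 0 := by
    have : (4 : k) = 2 * 2 := by norm_num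
    rw [this]; exact mul_ne_zero h2 h2
  field_simp

/-- discriminant of the member `X / 4` -/
theorem disc_q {c d X D : ℤ} (h : (16 * c) ^ 3 - (8 * d) ^ 2 = 1728 * D) (hD : D ≠ 0) :
    C4q c d X ^ 3 - C6q c d X ^ 2 = 1728 * (D * D4q c d X ^ 5) := by
  have hc : ((16 * (c : ℂ))) ^ 3 - (8 * (d : ℂ)) ^ 2 ≠ 0 := by
    have : (((16 * c) ^ 3 - (8 * d) ^ 2 : ℤ) : ℂ) ≠ 0 := by
      rw [h]; exact_mod_cast mul_ne_zero (by norm_num) hD
    exact_mod_cast this
  have := disc_field (k := ℂ) (by norm_num) (by norm_num) (16 * (c : ℂ)) (8 * (d : ℂ))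
    ((X : ℂ) / 4) hc
  rw [C4_quarter, C6_quarter, DD_quarter, four_mul_div (by norm_num)] at this
  have e4 := map_C4q (Int.castRingHom ℂ) c d X
  have e6 := map_C6q (Int.castRingHom ℂ) c d X
  have eD := map_D4q (Int.castRingHom ℂ) c d X
  simp only [eq_intCast] at e4 e6 eD
  rw [← e4, ← e6, ← eD] at this
  have h2 : C4q c d X ^ 3 - C6q c d X ^ 2 = ((16 * c) ^ 3 - (8 * d) ^ 2) * D4q c d X ^ 5 := by
    exact_mod_cast this
  rw [h2, h]; ring

/-- `D4q` and `C4q` have no common prime factor outside `30 D`. -/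
theorem not_dvd_C4q {c d X D : ℤ} (h : (16 * c) ^ 3 - (8 * d) ^ 2 = 1728 * D) {p : ℕ}
    (hp : p.Prime) (hpD : ¬ (p : ℤ) ∣ 30 * D) (hDD : (p : ℤ) ∣ D4q c d X) :
    ¬ (p : ℤ) ∣ C4q c d X := by
  have := Fact.mk hp
  intro h4
  let k := AlgebraicClosure (ZMod p)
  let f : ℤ →+* k := (algebraMap (ZMod p) k).comp (Int.castRingHom (ZMod p))
  have hf : ∀ z : ℤ, f z = 0 ↔ (p : ℤ) ∣ z := by
    intro z
    rw [eq_intCast]
    exact CharP.intCast_eq_zero_iff k p z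
  have h30 : f 30 ≠ 0 := fun h0 => hpD (Dvd.dvd.mul_right ((hf 30).mp h0) D)
  have h6 : (6 : k) ≠ 0 := by
    intro h0
    apply h30
    have : f 30 = 6 * 5 := by
      rw [show (30 : ℤ) = 6 * 5 by norm_num, map_mul, map_ofNat, map_ofNat]
    rw [this, h0, zero_mul]
  have h5 : (5 : k) ≠ 0 := by
    intro h0
    apply h30
    have : f 30 = 6 * 5 := by
      rw [show (30 : ℤ) = 6 * 5 by norm_num, map_mul, map_ofNat, map_ofNat]
    rw [this, h0, mul_zero]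
  have h2 : (2 : k) ≠ 0 := by
    intro h0
    apply h6
    have : (6 : k) = 2 * 3 := by norm_num
    rw [this, h0, zero_mul]
  have hD : f ((16 * c) ^ 3 - (8 * d) ^ 2) ≠ 0 := by
    rw [h, Ne, hf]
    intro h0
    rcases (Nat.prime_iff_prime_int.mp hp).dvd_or_dvd h0 with h1 | h1
    · apply h30
      rw [hf]
      have h2 : (p : ℤ) ∣ 6 := by
        have h3 : (p : ℤ) ∣ 6 ^ 6 := h1.trans ⟨27, by norm_num⟩
        exact (Nat.prime_iff_prime_int.mp hp).dvd_of_dvd_pow h3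
      exact h2.trans ⟨5, by norm_num⟩
    · exact hpD (Dvd.dvd.mul_left h1 30)
  rw [map_sub, map_pow, map_pow, map_mul, map_mul, map_ofNat, map_ofNat] at hD
  have := C4_ne_zero_of_DD h6 h5 (16 * f c) (8 * f d) (f X / 4) hD
    (by rw [DD_quarter, four_mul_div h2, ← map_D4q, hf]; exact hDD)
  apply this
  rw [C4_quarter, four_mul_div h2, ← map_C4q, hf]; exact h4

end field

/-- congruence mod 5 for the curves of the family with arbitrary parameter mod `ℓ`, `ℓ > 5` -/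
theorem congr_param (W W' : WeierstrassCurve ℤ) (ℓ : ℕ) (hℓ : ℓ.Prime) (hℓ5 : 5 < ℓ)
    (m : ZMod ℓ) (h4 : C4 (W.c₄ : ZMod ℓ) (W.c₆ : ZMod ℓ) m = (W'.c₄ : ZMod ℓ))
    (h6 : C6 (W.c₄ : ZMod ℓ) (W.c₆ : ZMod ℓ) m = (W'.c₆ : ZMod ℓ))
    (hg : W.IsGoodPrimeFor ℓ) (hg' : W'.IsGoodPrimeFor ℓ) :
    (5 : ℤ) ∣ (W'.apOfModel ℓ - W.apOfModel ℓ) := by
  have := Fact.mk hℓ
  obtain ⟨σ, hσ⟩ := Frob.ch_prop ℓ hℓ5
  let k := AlgebraicClosure (ZMod ℓ)
  letI : DecidableEq k := Classical.decEq _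
  have hnz' : ∀ m : ℕ, 0 < m → m < ℓ → (m : ZMod ℓ) ≠ 0 := by
    intro m h0 h1
    rw [Ne, CharP.cast_eq_zero_iff (ZMod ℓ) ℓ]
    exact Nat.not_dvd_of_pos_of_lt h0 h1
  have hnz : ∀ m : ℕ, 0 < m → m < ℓ → (m : k) ≠ 0 := by
    intro m h0 h1
    rw [Ne, CharP.cast_eq_zero_iff k ℓ]
    exact Nat.not_dvd_of_pos_of_lt h0 h1
  have h5k : (5 : k) ≠ 0 := by exact_mod_cast hnz 5 (by norm_num) hℓ5
  have h6k : (6 : k) ≠ 0 := by
    have h2 : ((2 : ℕ) : k) ≠ 0 := hnz 2 (by norm_num) (by omega)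
    have h3 : ((3 : ℕ) : k) ≠ 0 := hnz 3 (by norm_num) (by omega)
    have : (6 : k) = ((2 : ℕ) : k) * ((3 : ℕ) : k) := by norm_num
    rw [this]; exact mul_ne_zero h2 h3
  have h1728 : (1728 : ZMod ℓ) ≠ 0 := by
    have h2 : ((2 : ℕ) : ZMod ℓ) ≠ 0 := hnz' 2 (by norm_num) (by omega)
    have h3 : ((3 : ℕ) : ZMod ℓ) ≠ 0 := hnz' 3 (by norm_num) (by omega)
    have : (1728 : ZMod ℓ) = ((2 : ℕ) : ZMod ℓ) ^ 6 * ((3 : ℕ) : ZMod ℓ) ^ 3 := by norm_num
    rw [this]; exact mul_ne_zero (pow_ne_zero _ h2) (pow_ne_zero _ h3)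
  obtain ⟨n, hn⟩ : ∃ n : ZMod ℓ, 1728 * n = m := ⟨m / 1728, by field_simp⟩
  have hW : (W.reductionMod ℓ).Δ ≠ 0 := by
    rw [reductionMod, WeierstrassCurve.map_Δ, eq_intCast, Ne,
      ZMod.intCast_zmod_eq_zero_iff_dvd]
    exact hg
  have hV : (W'.reductionMod ℓ).Δ ≠ 0 := by
    rw [reductionMod, WeierstrassCurve.map_Δ, eq_intCast, Ne,
      ZMod.intCast_zmod_eq_zero_iff_dvd]
    exact hg'
  have hV4 : (W'.reductionMod ℓ).c₄ =
      C4 (W.reductionMod ℓ).c₄ (W.reductionMod ℓ).c₆ (1728 * n) := by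
    rw [hn, reductionMod, reductionMod, WeierstrassCurve.map_c₄, WeierstrassCurve.map_c₄,
      WeierstrassCurve.map_c₆]
    exact h4.symm
  have hV6 : (W'.reductionMod ℓ).c₆ =
      C6 (W.reductionMod ℓ).c₄ (W.reductionMod ℓ).c₆ (1728 * n) := by
    rw [hn, reductionMod, reductionMod, WeierstrassCurve.map_c₆, WeierstrassCurve.map_c₄,
      WeierstrassCurve.map_c₆]
    exact h6.symm
  exact congr_of_CH h6k h5k σ (ℓ : ℤ) hV4 hV6 hW hV _ _ (hσ _ hW) (hσ _ hV)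

end Fermat.Agent.ZK
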