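import Fermat.Agent.ZK.Loc2
import Fermat.Agent.H24K.Final
set_option autoImplicit false

/-!
# The 5-switch from good supersingular reduction to multiplicative reduction at `2`
-/

namespace Fermat.Agent.ZK

open WeierstrassCurve Fermat.Agent.H24 Fermat.Agent.H24K Fermat.Agent.H07.Sel

theorem dvd30_cases {q : ℕ} (hq : q.Prime) (h : (q : ℤ) ∣ 30) : q = 2 ∨ q = 3 ∨ q = 5 := by
  have h3 : q ∣ 30 := by exact_mod_cast h
  have h30 : (30 : ℕ) = 2 * (3 * 5) := by norm_num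
  rw [h30] at h3
  rcases (Nat.Prime.dvd_mul hq).1 h3 with h3 | h3
  · exact Or.inl ((Nat.prime_dvd_prime_iff_eq hq Nat.prime_two).1 h3)
  · rcases (Nat.Prime.dvd_mul hq).1 h3 with h3 | h3
    · exact Or.inr (Or.inl ((Nat.prime_dvd_prime_iff_eq hq Nat.prime_three).1 h3))
    · exact Or.inr (Or.inr ((Nat.prime_dvd_prime_iff_eq hq Nat.prime_five).1 h3))

/-- first step: multiplicative reduction at `2` with `v_2(Δ') = 5` -/
theorem switch_first (W : WeierstrassCurve ℤ) (hΔ : W.Δ ≠ 0) (hW : W.IsSemistableModel)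
    (h2 : ¬ (2 : ℤ) ∣ W.Δ) {c d : ℤ} (hc4 : W.c₄ = 16 * c) (hc6 : W.c₆ = 8 * d)
    (hc : c % 2 = 1) (hd : d % 4 = 1) :
    ∃ W' : WeierstrassCurve ℤ, W'.Δ ≠ 0 ∧ W'.IsSemistableModel ∧ (2 : ℤ) ∣ W'.Δ ∧
      padicValInt 2 W'.Δ = 5 ∧ (∀ q : ℕ, q.Prime → (q : ℤ) ∣ W.Δ → (q : ℤ) ∣ W'.Δ) ∧
      ((3 : ℤ) ∣ W'.Δ → (3 : ℤ) ∣ W.Δ) ∧ ((5 : ℤ) ∣ W'.Δ → (5 : ℤ) ∣ W.Δ) ∧
      ∀ ℓ : ℕ, ℓ.Prime → ℓ ≠ 2 → ℓ ≠ 5 → W.IsGoodPrimeFor ℓ → W'.IsGoodPrimeFor ℓ →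
        (5 : ℤ) ∣ (W'.apOfModel ℓ - W.apOfModel ℓ) := by
  have hE : (16 * c) ^ 3 - (8 * d) ^ 2 = 1728 * W.Δ := by
    rw [← hc4, ← hc6]; exact W.c_relation.symm
  have hΔodd : W.Δ % 2 = 1 := by omega
  -- choice of the parameter
  obtain ⟨X, hXdef⟩ : ∃ X : ℤ, X = 3 * (1215 * W.Δ) ^ 2 := ⟨_, rfl⟩
  have hX4 : X % 4 = 3 := by
    obtain ⟨k, hk⟩ : ∃ k, W.Δ = 2 * k + 1 := ⟨W.Δ / 2, by omega⟩
    have e : X = 4 * (1107168 * (4 * k ^ 2 + 4 * k) + 3 * 369056 + 3 * (4 * k ^ 2 + 4 * k) * 1)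
        + 3 + (X - (4 * (1107168 * (4 * k ^ 2 + 4 * k) + 3 * 369056 +
          3 * (4 * k ^ 2 + 4 * k) * 1) + 3)) := by ring
    have e2 : X = 4 * (4428675 * (k ^ 2 + k) + 1107168) + 3 := by
      rw [hXdef, hk]; ring
    rw [e2]; omega
  have hX243 : (243 : ℤ) ∣ X := ⟨18225 * W.Δ ^ 2, by rw [hXdef]; ring⟩
  have hX5 : (5 : ℤ) ∣ X := ⟨885735 * W.Δ ^ 2, by rw [hXdef]; ring⟩
  have hXΔ : W.Δ ∣ X := ⟨4428675 * W.Δ, by rw [hXdef]; ring⟩
  obtain ⟨hD2, hD4, hC2, hC6⟩ := local_two hc hd hX4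
  have hDne : D4q c d X ≠ 0 := fun h => hD4 (by rw [h]; exact dvd_zero _)
  have hD5 : D4q c d X ^ 5 ≠ 0 := pow_ne_zero _ hDne
  have hqX : ∀ q : ℕ, q.Prime → q ≠ 2 → (q : ℤ) ∣ 30 * W.Δ → (q : ℤ) ∣ X := by
    intro q hq hq2 h
    have hq' := Nat.prime_iff_prime_int.mp hq
    rcases hq'.dvd_or_dvd h with h | h
    · rcases dvd30_cases hq h with rfl | rfl | rfl
      · exact absurd rfl hq2
      · exact (by norm_num : ((3 : ℕ) : ℤ) ∣ 243).trans hX243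
      · exact_mod_cast hX5
    · exact h.trans hXΔ
  have hqD : ∀ q : ℕ, q.Prime → (q : ℤ) ∣ X → ¬ (q : ℤ) ∣ D4q c d X := by
    intro q hq h1 h2
    have hq' := Nat.prime_iff_prime_int.mp hq
    apply hq'.not_isUnit
    apply isUnit_of_dvd_one
    have e : (1 : ℤ) = D4q c d X - (D4q c d X - 1) := by ring
    rw [e]; exact dvd_sub h2 (D4q_zero h1)
  have h3' : ¬ (3 : ℤ) ∣ C4q c d X ∨ (27 : ℤ) ∣ C6q c d X := by
    by_cases h3c : (3 : ℤ) ∣ W.c₄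
    · right
      have e : C6q c d X = (C6q c d X - 8 * d) + W.c₆ := by rw [hc6]; ring
      rw [e]
      exact dvd_add ((by norm_num : (27 : ℤ) ∣ 243).trans (C6q_zero hX243)) (c6_three W h3c)
    · left
      intro h
      apply h3c
      have e : W.c₄ = C4q c d X - (C4q c d X - 16 * c) := by rw [hc4]; ring
      rw [e]
      exact dvd_sub h (C4q_zero ((by norm_num : (3 : ℤ) ∣ 243).trans hX243))
  obtain ⟨W', hW4, hW6, hWD⟩ := exists_model (disc_q (X := X) hE hΔ) hC2 hC6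
    (Dvd.dvd.mul_left (dvd_pow hD2 (by norm_num)) _) h3'
  have hback : ∀ q : ℕ, q.Prime → (q : ℤ) ∣ X → (q : ℤ) ∣ W'.Δ → (q : ℤ) ∣ W.Δ := by
    intro q hq h1 h
    have hq' := Nat.prime_iff_prime_int.mp hq
    rw [hWD] at h
    rcases hq'.dvd_or_dvd h with h | h
    · exact h
    · exact absurd (hq'.dvd_of_dvd_pow h) (hqD q hq h1)
  refine ⟨W', ?_, ?_, ?_, ?_, ?_, ?_, ?_, ?_⟩
  · rw [hWD]; exact mul_ne_zero hΔ hD5
  · intro q hq hqΔ
    have hq' := Nat.prime_iff_prime_int.mp hq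
    rw [hW4]
    by_cases hq2 : q = 2
    · subst hq2; exact_mod_cast hC2
    intro hqC
    by_cases h30 : (q : ℤ) ∣ 30 * W.Δ
    · have h1 := hqX q hq hq2 h30
      apply hW q hq (hback q hq h1 hqΔ)
      have e : W.c₄ = C4q c d X - (C4q c d X - 16 * c) := by rw [hc4]; ring
      rw [e]; exact dvd_sub hqC (C4q_zero h1)
    · have hqDD : (q : ℤ) ∣ D4q c d X := by
        rw [hWD] at hqΔ
        rcases hq'.dvd_or_dvd hqΔ with h | h
        · exact absurd (h.mul_left 30) h30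
        · exact hq'.dvd_of_dvd_pow h
      exact not_dvd_C4q hE hq h30 hqDD hqC
  · rw [hWD]; exact Dvd.dvd.mul_left (dvd_pow hD2 (by norm_num)) _
  · have hp2 := Fact.mk Nat.prime_two
    have v0 : padicValInt 2 W.Δ = 0 := val_zero (p := 2) (by exact_mod_cast h2)
    have v1 : padicValInt 2 (D4q c d X) = 1 :=
      val_one Nat.prime_two (by exact_mod_cast hD2) (by exact_mod_cast hD4)
    rw [hWD, padicValInt.mul hΔ hD5, v0, zero_add]
    have e : D4q c d X ^ 5 = D4q c d X * (D4q c d X * (D4q c d X * (D4q c d X * D4q c d X))) := by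
      ring
    rw [e, padicValInt.mul hDne (by positivity), padicValInt.mul hDne (by positivity),
      padicValInt.mul hDne (by positivity), padicValInt.mul hDne hDne, v1]
  · intro q hq h
    rw [hWD]; exact h.mul_right _
  · intro h
    exact_mod_cast hback 3 Nat.prime_three
      ((by norm_num : ((3 : ℕ) : ℤ) ∣ 243).trans hX243) (by exact_mod_cast h)
  · intro h
    exact_mod_cast hback 5 Nat.prime_five (by exact_mod_cast hX5) (by exact_mod_cast h)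
  · intro ℓ hℓ hℓ2 hℓ5 hg hg'
    by_cases hℓ3 : ℓ = 3
    · subst hℓ3
      have key := trace_three W W' (by rw [hW4, hc4]; exact C4q_zero hX243)
        (by rw [hW6, hc6]; exact C6q_zero hX243)
      unfold apOfModel
      rw [key, sub_self]
      exact dvd_zero _
    · have h5 : 5 < ℓ := by
        have h2 := hℓ.two_le
        by_contra hle
        push Not at hle
        interval_cases ℓ
        · exact hℓ2 rfl
        · exact hℓ3 rfl
        · exact absurd hℓ (by decide)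
        · exact hℓ5 rfl
      have hfact := Fact.mk hℓ
      have h2ℓ : (2 : ZMod ℓ) ≠ 0 := by
        have : ((2 : ℕ) : ZMod ℓ) ≠ 0 := by
          rw [Ne, CharP.cast_eq_zero_iff (ZMod ℓ) ℓ]
          exact Nat.not_dvd_of_pos_of_lt (by norm_num) (by omega)
        exact_mod_cast this
      have g4 := map_C4q (Int.castRingHom (ZMod ℓ)) c d X
      have g6 := map_C6q (Int.castRingHom (ZMod ℓ)) c d X
      simp only [eq_intCast] at g4 g6
      refine congr_param W W' ℓ hℓ h5 ((X : ZMod ℓ) / 4) ?_ ?_ hg hg'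
      · rw [hW4, hc4, hc6, g4]
        push_cast
        rw [C4_quarter, four_mul_div h2ℓ]
      · rw [hW6, hc4, hc6, g6]
        push_cast
        rw [C6_quarter, four_mul_div h2ℓ]

/-- **The 5-switch at `2`** (shape form) -/
theorem switch_two (W : WeierstrassCurve ℤ) (hΔ : W.Δ ≠ 0) (hW : W.IsSemistableModel)
    (h2 : ¬ (2 : ℤ) ∣ W.Δ) {c d : ℤ} (hc4 : W.c₄ = 16 * c) (hc6 : W.c₆ = 8 * d)
    (hc : c % 2 = 1) (hd : d % 4 = 1) :
    ∃ W' : WeierstrassCurve ℤ, W'.Δ ≠ 0 ∧ W'.IsSemistableModel ∧ (2 : ℤ) ∣ W'.Δ ∧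
      W'.ModRepIsIrreducible 3 ∧ ¬ 3 ∣ padicValInt 2 W'.Δ ∧
      ((3 : ℤ) ∣ W'.Δ → (3 : ℤ) ∣ W.Δ) ∧ ((5 : ℤ) ∣ W'.Δ → (5 : ℤ) ∣ W.Δ) ∧
      ∀ ℓ : ℕ, ℓ.Prime → ℓ ≠ 2 → ℓ ≠ 5 → W.IsGoodPrimeFor ℓ → W'.IsGoodPrimeFor ℓ →
        (5 : ℤ) ∣ (W'.apOfModel ℓ - W.apOfModel ℓ) := by
  obtain ⟨W1, n1, s1, t1, v1, d1, x3, x5, c1⟩ := switch_first W hΔ hW h2 hc4 hc6 hc hd
  obtain ⟨W', s, irr, hv⟩ := stepC W1 n1 s1 t1
  refine ⟨W', s.ne, s.ss, s.two, irr, ?_, ?_, ?_, ?_⟩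
  · rw [hv 2 Nat.prime_two (by norm_num), v1]; norm_num
  · intro h
    apply x3
    have h1 := (val_pos_iff Nat.prime_three s.ne).1 (by exact_mod_cast h)
    rw [hv 3 Nat.prime_three (by norm_num)] at h1
    exact_mod_cast (val_pos_iff Nat.prime_three n1).2 h1
  · intro h
    apply x5
    have h1 := (val_pos_iff Nat.prime_five s.ne).1 (by exact_mod_cast h)
    rw [hv 5 Nat.prime_five (by norm_num)] at h1
    exact_mod_cast (val_pos_iff Nat.prime_five n1).2 h1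
  · intro ℓ hℓ hℓ2 hℓ5 hg hg'
    have hg1 : W1.IsGoodPrimeFor ℓ := fun hdv => hg' (s.dvd ℓ hℓ hdv)
    have e : W'.apOfModel ℓ - W.apOfModel ℓ = (W'.apOfModel ℓ - W1.apOfModel ℓ) +
      (W1.apOfModel ℓ - W.apOfModel ℓ) := by ring
    rw [e]
    exact dvd_add (s.congr ℓ hℓ hg1 hg' hℓ5) (c1 ℓ hℓ hℓ2 hℓ5 hg hg1)

end Fermat.Agent.ZK
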